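import Fermat.Agent.S56.GW.EC.L2Lv.Main
import Fermat.Agent.S56.GW.LEC.Fin.Main
import Fermat.Agent.S56.GW.EC.Sh.Bridge

/-!
# S56, [GW-EC], cell [EC-L2], level-formalism half (helper3; prefix `s56l2_`): the local instance

From `s56l_RE_stmt` (right exactness of `lvH2` over `G_q`) and `s56l_BR_stmt`
(`#H²(W, μ_p) = p`, trivial conjugation action of the `p'`-overgroups): for every finite smooth
`p`-torsion `G_q`-module `N`,
`Finite (lvH2 N) ∧ #lvH2 N ≤ #Hom_{G_q}(N, μ_p)` (`s56l2_loc`).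

The conjugation action of ALL of `G_q` on `H²(W, μ_p)` is trivial: it is a character
`G_q ⧸ W → F_p^×`, trivial on `g ^ p ^ k` as soon as the order of `g ^ p ^ k` in `G_q ⧸ W` is prime
to `p` (by `s56l_BR_stmt` for `U := ⟨W, g ^ p ^ k⟩`), and `r ^ p ^ k = r` in `F_p`.
-/

set_option autoImplicit false
set_option linter.unusedSectionVars false

namespace Fermat.Agent.S56

open Fermat.Agent.S55 ExtCitation groupCohomology

/-- A group acting on a group of order `p`, trivially through `g ^ p ^ k`, acts trivially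
through `g`. -/
theorem s56l2_char_trivial {Y : Type*} [AddCommGroup Y] {p : ℕ} (hp : p.Prime)
    (hY : Nat.card Y = p) {Γ : Type*} [Group Γ] (c : Γ → Y →+ Y)
    (hc1 : ∀ y : Y, c 1 y = y)
    (hcm : ∀ (g h : Γ) (y : Y), c (g * h) y = c g (c h y))
    (g : Γ) (k : ℕ) (hk : ∀ y : Y, c (g ^ p ^ k) y = y) (y : Y) : c g y = y := by
  haveI : Fact p.Prime := ⟨hp⟩
  have hfin : Finite Y := Nat.finite_of_card_ne_zero (by rw [hY]; exact hp.ne_zero)
  have hnt : Nontrivial Y :=
    Finite.one_lt_card_iff_nontrivial.mp (by rw [hY]; exact hp.one_lt)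
  obtain ⟨y₀, hy₀⟩ := exists_ne (0 : Y)
  obtain ⟨hgen, -⟩ := s56lk2_gen hp hY hy₀
  have hpy : p • y₀ = 0 := by rw [← hY]; exact card_nsmul_eq_zero'
  have hord : addOrderOf y₀ = p := addOrderOf_eq_prime hpy hy₀
  obtain ⟨r, hr⟩ := hgen (c g y₀)
  have hpow : ∀ j : ℕ, c (g ^ j) y₀ = r ^ j • y₀ := by
    intro j
    induction j with
    | zero => rw [pow_zero, pow_zero, one_smul, hc1]
    | succ j ih =>
      rw [pow_succ, hcm, hr, map_nsmul, ih, smul_smul, pow_succ, mul_comm]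
  have h1 := hk y₀
  rw [hpow] at h1
  have h2 : r ^ p ^ k ≡ 1 [MOD p] := by
    have : r ^ p ^ k • y₀ = 1 • y₀ := by rw [h1, one_smul]
    rw [nsmul_eq_nsmul_iff_modEq, hord] at this
    exact this
  have h3 : (r : ZMod p) = 1 := by
    have := (ZMod.natCast_eq_natCast_iff _ _ _).2 h2
    push_cast at this
    rwa [ZMod.pow_card_pow] at this
  have h4 : r ≡ 1 [MOD p] := (ZMod.natCast_eq_natCast_iff _ _ _).1 (by push_cast; exact h3)
  have h5 : c g y₀ = y₀ := by
    have : r • y₀ = 1 • y₀ := by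
      rw [nsmul_eq_nsmul_iff_modEq, hord]
      exact h4
    rw [hr, this, one_smul]
  obtain ⟨a, rfl⟩ := hgen y
  rw [map_nsmul, h5]

section inst

variable (p : ℕ) [Fact p.Prime] (q : Nat.Primes)

/-- `#H²(W, μ_p) = p` for a normal level `W` fixing `μ_p`. -/
theorem s56l2_br (hBR : s56l_BR_stmt) (W : Subgroup (primeLocalGaloisGroup q)) [hWn : W.Normal]
    (hW : W ∈ (tl_levelsLoc q).levels) (hμ : ∀ w ∈ W, ∀ ζ : ↥(s56l_mu p q), w • ζ = ζ) :
    Nat.card (lvH2 (s56esh_LU (tl_levelsLoc q) W) ↥(s56l_mu p q)) = p := by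
  have hyp := s56lf_baseHyp p q W hWn hW hμ
  obtain ⟨h1, -⟩ := hBR p q W W hyp
  exact (Nat.card_congr (Equiv.ofBijective _
    (s56esh_subMor_H2_bijective (L := tl_levelsLoc q) (X := ↥(s56l_mu p q)) (le_refl W)))).trans h1

/-- The conjugation action of `G_q` on `H²(W, μ_p)` is trivial. -/
theorem s56l2_conj (hBR : s56l_BR_stmt) (W : Subgroup (primeLocalGaloisGroup q)) [hWn : W.Normal]
    (hW : W ∈ (tl_levelsLoc q).levels) (hμ : ∀ w ∈ W, ∀ ζ : ↥(s56l_mu p q), w • ζ = ζ)
    (g : primeLocalGaloisGroup q) (y : lvH2 (s56esh_LU (tl_levelsLoc q) W) ↥(s56l_mu p q)) :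
    (s56esh_conjV (tl_levelsLoc q) W ↥(s56l_mu p q) g).H2 y = y := by
  have hp : p.Prime := Fact.out
  have hfq : Finite (primeLocalGaloisGroup q ⧸ W) := (tl_levelsLoc q).finite_quotient hW
  have hn : 0 < orderOf (g : primeLocalGaloisGroup q ⧸ W) := orderOf_pos _
  obtain ⟨k, n', hpn', hnk⟩ := Nat.exists_eq_pow_mul_and_not_dvd hn.ne' p hp.ne_one
  let U : Subgroup (primeLocalGaloisGroup q) :=
    (Subgroup.zpowers ((g : primeLocalGaloisGroup q ⧸ W) ^ p ^ k)).comap (QuotientGroup.mk' W)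
  have hWU : W ≤ U := fun w hw => by
    show QuotientGroup.mk' W w ∈ Subgroup.zpowers _
    rw [QuotientGroup.mk'_apply, (QuotientGroup.eq_one_iff w).2 hw]
    exact one_mem _
  have hgU : g ^ p ^ k ∈ U := by
    show QuotientGroup.mk' W (g ^ p ^ k) ∈ Subgroup.zpowers _
    rw [map_pow]
    exact Subgroup.mem_zpowers _
  have hidx : ¬ p ∣ (W.subgroupOf U).index := by
    have h1 : (W.subgroupOf U).index =
        orderOf ((g : primeLocalGaloisGroup q ⧸ W) ^ p ^ k) := by
      have hker : ((⊥ : Subgroup (primeLocalGaloisGroup q ⧸ W)).comap (QuotientGroup.mk' W)) = W := by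
        rw [MonoidHom.comap_bot, QuotientGroup.ker_mk']
      calc (W.subgroupOf U).index = W.relIndex U := rfl
        _ = ((⊥ : Subgroup (primeLocalGaloisGroup q ⧸ W)).comap
              (QuotientGroup.mk' W)).relIndex U := by rw [hker]
        _ = orderOf ((g : primeLocalGaloisGroup q ⧸ W) ^ p ^ k) := by
          rw [Subgroup.relIndex_comap,
            Subgroup.map_comap_eq_self_of_surjective (QuotientGroup.mk'_surjective W),
            Subgroup.relIndex_bot_left, Nat.card_zpowers]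
    rw [h1, orderOf_pow' _ (pow_ne_zero k hp.ne_zero), hnk,
      Nat.gcd_eq_right (Dvd.intro _ rfl), Nat.mul_div_cancel_left _ (pow_pos hp.pos k)]
    exact hpn'
  have hyp : s56l_BaseHyp p q W U :=
    { normal := hWn
      level := ⟨W, hW, le_rfl⟩
      le := hWU
      index := hidx
      mu := hμ }
  obtain ⟨-, h2⟩ := hBR p q W U hyp
  have hinj := (s56esh_subMor_H2_bijective (L := tl_levelsLoc q) (X := ↥(s56l_mu p q)) hWU).1
  have hk : ∀ y' : lvH2 (s56esh_LU (tl_levelsLoc q) W) ↥(s56l_mu p q),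
      (s56esh_conjV (tl_levelsLoc q) W ↥(s56l_mu p q) (g ^ p ^ k)).H2 y' = y' := by
    intro y'
    apply hinj
    have h3 := s56esh_subMor_comp_conjV (L := tl_levelsLoc q) (X := ↥(s56l_mu p q)) hWU
      (⟨g ^ p ^ k, hgU⟩ : U)
    have h4 := LvMor.H2_comp (s56esh_subMor (tl_levelsLoc q) hWU ↥(s56l_mu p q))
      (s56esh_conjV (tl_levelsLoc q) W ↥(s56l_mu p q) (g ^ p ^ k)) y'
    rw [← h4]
    have h5 : (s56esh_subMor (tl_levelsLoc q) hWU ↥(s56l_mu p q)).comp
        (s56esh_conjV (tl_levelsLoc q) W ↥(s56l_mu p q) (g ^ p ^ k)) =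
        (s56esh_conjV (s56esh_LU (tl_levelsLoc q) U) (W.subgroupOf U) ↥(s56l_mu p q)
          (⟨g ^ p ^ k, hgU⟩ : U)).comp (s56esh_subMor (tl_levelsLoc q) hWU ↥(s56l_mu p q)) := h3
    rw [h5, LvMor.H2_comp, h2]
  exact s56l2_char_trivial hp (s56l2_br p q hBR W hW hμ)
    (fun g => (s56esh_conjV (tl_levelsLoc q) W ↥(s56l_mu p q) g).H2)
    (fun y => s56esh_conjV_H2_one y) (fun g h y => s56esh_conjV_H2_mul g h y) g k hk y

/-- **`(L2 ≤)` over `G_q` in the level formalism**: for every finite smooth `p`-torsion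
`G_q`-module `N`, `lvH2 N` is finite of order at most `#Hom_{G_q}(N, μ_p)`. -/
theorem s56l2_loc (hRE : s56l_RE_stmt) (hBR : s56l_BR_stmt) (N : Type) [AddCommGroup N]
    [DistribMulAction (primeLocalGaloisGroup q) N] [Finite N]
    (hp : ∀ n : N, p • n = 0) (hsm : (tl_levelsLoc q).IsSmooth N) :
    Finite (lvH2 (tl_levelsLoc q) N) ∧
      Nat.card (lvH2 (tl_levelsLoc q) N) ≤
        Nat.card (lvH0 (G := primeLocalGaloisGroup q) (LvHom N ↥(s56l_mu p q))) := by
  obtain ⟨W, hW, hWn, hN, hμ⟩ := s56lf_exists_level p q N hsm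
  haveI := hWn
  exact s56l2_main'
    { prime := Fact.out
      isOpen := ⟨W, hW, le_rfl⟩
      finN := inferInstance
      torsN := hp
      trivN := hN
      cardZ := s56l_mu_card p q
      trivZ := hμ
      br := s56l2_br p q hBR W hW hμ
      conj := s56l2_conj p q hBR W hW hμ
      re := fun E hB hA => hRE p q E hB hA }

end inst

end Fermat.Agent.S56
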