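import Fermat.Agent.S56.GW.EC.L2Lv.DualIso
import Fermat.Agent.S56.GW.EC.GB.Basic
import Fermat.Agent.S56.GW.LEC.Seams
import Fermat.Agent.S55.Dual.ModulesES
import Fermat.Agent.S55.DualTwistHyp

/-!
# [EC-L2] bridge (ii): from the level formalism to the frozen vocabulary (prefix `s56l2b_`)

`s56l2b_main : s56l2b_Loc_stmt → s56egb_L2_stmt`, where `s56l2b_Loc_stmt` is the conclusion of
`s56l2_loc` (`L2Lv/Inst.lean`): for every finite smooth `p`-torsion `G_q`-module `N`,
`lvH2 N` is finite and `|lvH2 N| ≤ |Hom_{G_q}(N, μ_p)|`.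

Applied to `N = M^*(1)|G_q`: `Hom_{G_q}(M^*(1), μ_p) ≅ M^{G_q}` (`s56l2b_card_invariants`, the
cyclotomic character of `G_q` on `μ_p ⊂ (ℚ̄_q)ˣ` being the restriction of `cycloChar p`:
`dm_smul_zetaLoc`).
-/

set_option autoImplicit false
set_option linter.unusedSectionVars false
set_option linter.style.haveILetI false

namespace Fermat.Agent.S56

open Fermat.Agent.S55 groupCohomology Function CategoryTheory Module ExtCitation

local notation "GQ" => (AlgebraicClosure ℚ ≃ₐ[ℚ] AlgebraicClosure ℚ)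

/-- The local input of the bridge = the conclusion of `s56l2_loc`. -/
def s56l2b_Loc_stmt : Prop :=
  ∀ (p : ℕ) [Fact p.Prime] (q : Nat.Primes) (N : Type) [AddCommGroup N]
    [DistribMulAction (primeLocalGaloisGroup q) N] [Finite N],
    (∀ n : N, p • n = 0) → (tl_levelsLoc q).IsSmooth N →
    Finite (lvH2 (tl_levelsLoc q) N) ∧
      Nat.card (lvH2 (tl_levelsLoc q) N) ≤
        Nat.card (lvH0 (G := primeLocalGaloisGroup q) (LvHom N ↥(s56l_mu p q)))

section Bridge

variable {p : ℕ} [hp : Fact p.Prime] (M : Rep.{0} (ZMod p) GQ) [FiniteDimensional (ZMod p) M]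
  (q : Nat.Primes)

/-- `|Hom_{G_q}(M^*(1), μ_p)| = |M^{G_q}|`. -/
theorem s56l2b_card_hom :
    Nat.card (lvH0 (G := primeLocalGaloisGroup q)
      (LvHom (tl_Act (s56gw_res (s56gw_dual M) q)) ↥(s56l_mu p q)))
      = Nat.card (s56gw_res M q).ρ.invariants := by
  obtain ⟨ζ, hζ⟩ := HasEnoughRootsOfUnity.exists_primitiveRoot (AlgebraicClosure ℚ) p
  set S : Finset Nat.Primes := {pPrime p} with hS
  have hpS : pPrime p ∈ S := Finset.mem_singleton_self _
  set z₀ : tl_locUnits q := dm_zetaLoc S hpS hζ q with hz₀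
  have hz₀p : p • z₀ = 0 := dm_nsmul_zetaLoc S hpS hζ q
  set z : ↥(s56l_mu p q) := ⟨z₀, hz₀p⟩ with hzdef
  have hz : p • z = 0 := Subtype.ext hz₀p
  have hz0 : z ≠ 0 := fun h => dm_zetaLoc_ne_zero S hpS hζ q (congrArg Subtype.val h)
  have hcoe : ∀ c : ZMod p, ((dm_pair z hz c : ↥(s56l_mu p q)) : tl_locUnits q)
      = dm_pair z₀ hz₀p c := fun c => dm_pair_comp z hz (s56l_mu p q).subtype c
  have hgen : ∀ x : ↥(s56l_mu p q), ∃ c : ZMod p, x = dm_pair z hz c := by
    intro x
    obtain ⟨c, hc⟩ := dm_locUnits_torsion S hpS hζ q (x : tl_locUnits q) x.2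
    exact ⟨c, Subtype.ext (hc.trans (hcoe c).symm)⟩
  have hχ : ∀ g : primeLocalGaloisGroup q,
      g • z = dm_pair z hz (((cycloChar p).comp (primeLocalToGlobal q) g : (ZMod p)ˣ) : ZMod p) := by
    intro g
    apply Subtype.ext
    rw [hcoe]
    exact dm_smul_zetaLoc S hpS hζ q g
  exact s56l2b_card_invariants (s56gw_res M q).ρ ((cycloChar p).comp (primeLocalToGlobal q))
    (N := tl_Act (s56gw_res (s56gw_dual M) q)) (AddEquiv.refl _)
    (fun g f m => by
      show ((cycloChar p (primeLocalToGlobal q g) : (ZMod p)ˣ) : ZMod p) *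
          (show Module.Dual (ZMod p) M from f) (M.ρ (primeLocalToGlobal q g)⁻¹ m) = _
      rw [← map_inv]
      rfl) z hz hz0 hgen hχ

end Bridge

/-- **[EC-L2] bridge (ii).** -/
theorem s56l2b_main (hLoc : s56l2b_Loc_stmt) : s56egb_L2_stmt := by
  intro p _ hp2 M _ hsm q
  have hpp : p.Prime := Fact.out
  have hsm' : s56gw_Smooth (s56gw_dual M) := tl_dualTwist_smooth M hsm
  haveI : FiniteDimensional (ZMod p) (s56gw_dual M) :=
    inferInstanceAs (FiniteDimensional (ZMod p) (Module.Dual (ZMod p) M))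
  haveI : Finite (tl_Act (s56gw_res (s56gw_dual M) q)) := by
    haveI : FiniteDimensional (ZMod p) (tl_Act (s56gw_res (s56gw_dual M) q)) :=
      inferInstanceAs (FiniteDimensional (ZMod p) (Module.Dual (ZMod p) M))
    exact Module.finite_of_finite (ZMod p)
  have hX : (tl_levelsLoc q).IsSmooth (tl_Act (s56gw_res (s56gw_dual M) q)) := by
    intro x
    obtain ⟨F, hF, h⟩ := hsm' x
    exact ⟨F.fixingSubgroup.comap (primeLocalToGlobal q), ⟨_, ⟨F, hF, rfl⟩, rfl⟩,
      fun u hu => h (primeLocalToGlobal q u) hu⟩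
  obtain ⟨hfin, hle⟩ := hLoc p q (tl_Act (s56gw_res (s56gw_dual M) q))
    (fun x => ZModModule.char_nsmul_eq_zero p x) hX
  rw [s56l2b_card_hom M q] at hle
  have e2 : continuousH2 (primeLocalToGlobal q) (s56gw_res (s56gw_dual M) q) ≃+
      lvH2 (tl_levelsLoc q) (tl_Act (s56gw_res (s56gw_dual M) q)) :=
    tl_H2via_equiv (primeLocalToGlobal q) (s56gw_res (s56gw_dual M) q)
  haveI : Finite (continuousH2 (primeLocalToGlobal q) (s56gw_res (s56gw_dual M) q)) :=
    Finite.of_equiv _ e2.symm.toEquiv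
  haveI : Finite M := Module.finite_of_finite (ZMod p)
  haveI : Finite ↥(s56gw_res M q).ρ.invariants :=
    Finite.of_injective (fun x => (x.1 : M)) (fun _ _ h => Subtype.ext h)
  have c2 := Module.natCard_eq_pow_finrank (K := ZMod p)
    (V := continuousH2 (primeLocalToGlobal q) (s56gw_res (s56gw_dual M) q))
  have c0 := Module.natCard_eq_pow_finrank (K := ZMod p) (V := ↥(s56gw_res M q).ρ.invariants)
  rw [Nat.card_zmod] at c2 c0
  rw [← Nat.card_congr e2.toEquiv, c2, c0] at hle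
  exact (Nat.pow_le_pow_iff_right hpp.one_lt).1 hle

end Fermat.Agent.S56
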