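import Fermat.Agent.S56.GW.EC.L2Lv.Bridge
import Fermat.Agent.S56.GW.EC.L2Lv.Inst
import Fermat.Agent.S56.GW.EC.H3Loc.Stmt
import Fermat.Agent.S56.GW.EC.LecTop.BR

/-!
# [EC-L2]: the seam `s56egb_L2_stmt` from the local inputs (prefix `s56l2b_`)

* `s56l2b_L2_of : s56l_RE_stmt → s56l_BR_stmt → s56egb_L2_stmt` (`s56l2_loc` + the bridge);
* `s56l2b_L2_of_Br : s56elt_Br_stmt → s56egb_L2_stmt` (right exactness is `s56eh_RE_stmt`, and
  `s56l_BR_stmt` follows from the cardinality statement `|H²(U, μ_p)| = p` alone).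
-/

set_option autoImplicit false

namespace Fermat.Agent.S56

open Fermat.Agent.S55

/-- **[EC-L2]** from right exactness and `s56l_BR_stmt`. -/
theorem s56l2b_L2_of (hRE : s56l_RE_stmt) (hBR : s56l_BR_stmt) : s56egb_L2_stmt :=
  s56l2b_main (fun p _ q N _ _ _ hp hsm => s56l2_loc p q hRE hBR N hp hsm)

/-- **[EC-L2]** from `|H²(U, μ_p)| = p` for all open `U ≤ G_q`. -/
theorem s56l2b_L2_of_Br (hBr : s56elt_Br_stmt) : s56egb_L2_stmt :=
  s56l2b_L2_of s56eh_RE_stmt (s56elt_BR_of_Br hBr)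

end Fermat.Agent.S56
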