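import Fermat.Agent.S56.GW.EC.L2Lv.Trace
import Fermat.Agent.S56.GW.LEC.Fin.Abs

/-!
# S56, [GW-EC], cell [EC-L2], level-formalism half (helper3; prefix `s56l2_`): corestriction

`V ⊴ G` containing a level, `N` a finite `p`-torsion `G`-module with trivial `V`-action.

* `s56l2_sh` : Shapiro's isomorphism `lvH2 L (Coind_V^G N) ≃+ lvH2 (L|V) N` (helper16);
* `s56l2_cor` : the corestriction `lvH2 (L|V) N →+ lvH2 L N` (trace after Shapiro's inverse);
* `s56l2_cor_conj` : `cor (conjV_g y) = cor y`;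
* `s56l2_cor_surjective` : `cor` is surjective as soon as `lvH2 L` is right exact.
-/

set_option autoImplicit false
set_option linter.unusedSectionVars false

namespace Fermat.Agent.S56

open Fermat.Agent.S55 groupCohomology

section cor

variable {G : Type*} [Group G] (L : LevelSys G) (V : Subgroup G) [hV : V.Normal]
  (N : Type*) [AddCommGroup N] [DistribMulAction G N]

/-- The trace as a coefficient morphism. -/
noncomputable def s56l2_trM [Fintype (G ⧸ V)] : LvMor L (s56esh_Coind L V N) L N :=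
  LvMor.ofCoeff L (s56esh_pi L V N) (fun g φ => s56esh_pi_equivariant g φ)

variable {L V N}

theorem s56l2_trM_comp_TM [Fintype (G ⧸ V)] (h : G) :
    (s56l2_trM L V N).comp (s56esh_TM L V N h) = s56l2_trM L V N := by
  apply s56esh_LvMor_ext
  · rfl
  · ext φ
    exact s56l2_pi_T h φ

theorem s56l2_trM_TM_H2 [Fintype (G ⧸ V)] (h : G) (w : lvH2 L (s56esh_Coind L V N)) :
    (s56l2_trM L V N).H2 ((s56esh_TM L V N h).H2 w) = (s56l2_trM L V N).H2 w := by
  rw [← LvMor.H2_comp, s56l2_trM_comp_TM]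

variable (L V N)

/-- Shapiro's isomorphism in degree two. -/
noncomputable def s56l2_sh (hU : ∃ W ∈ L.levels, W ≤ V) (hN : (s56esh_LU L V).IsSmooth N) :
    lvH2 L (s56esh_Coind L V N) ≃+ lvH2 (s56esh_LU L V) N :=
  AddEquiv.ofBijective (s56esh_mor L V N).H2 (s56esh_H2_bijective hU hN)

variable {L V N}

theorem s56l2_sh_apply (hU : ∃ W ∈ L.levels, W ≤ V) (hN : (s56esh_LU L V).IsSmooth N)
    (w : lvH2 L (s56esh_Coind L V N)) : s56l2_sh L V N hU hN w = (s56esh_mor L V N).H2 w := rfl

/-- Shapiro's isomorphism intertwines the second action and conjugation. -/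
theorem s56l2_sh_symm_conj (hU : ∃ W ∈ L.levels, W ≤ V) (hN : (s56esh_LU L V).IsSmooth N)
    (g : G) (y : lvH2 (s56esh_LU L V) N) :
    (s56l2_sh L V N hU hN).symm ((s56esh_conjV L V N g).H2 y) =
      (s56esh_TM L V N g).H2 ((s56l2_sh L V N hU hN).symm y) := by
  rw [AddEquiv.symm_apply_eq, s56l2_sh_apply, s56esh_mor_T_H2, ← s56l2_sh_apply hU hN,
    AddEquiv.apply_symm_apply]

variable (L V N)

/-- The corestriction `lvH2 (L|V) N →+ lvH2 L N`. -/
noncomputable def s56l2_cor [Fintype (G ⧸ V)] (hU : ∃ W ∈ L.levels, W ≤ V)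
    (hN : (s56esh_LU L V).IsSmooth N) : lvH2 (s56esh_LU L V) N →+ lvH2 L N :=
  (s56l2_trM L V N).H2.comp (s56l2_sh L V N hU hN).symm.toAddMonoidHom

variable {L V N}

theorem s56l2_cor_apply [Fintype (G ⧸ V)] (hU : ∃ W ∈ L.levels, W ≤ V)
    (hN : (s56esh_LU L V).IsSmooth N) (y : lvH2 (s56esh_LU L V) N) :
    s56l2_cor L V N hU hN y = (s56l2_trM L V N).H2 ((s56l2_sh L V N hU hN).symm y) := rfl

/-- The corestriction is invariant under conjugation. -/
theorem s56l2_cor_conj [Fintype (G ⧸ V)] (hU : ∃ W ∈ L.levels, W ≤ V)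
    (hN : (s56esh_LU L V).IsSmooth N) (g : G) (y : lvH2 (s56esh_LU L V) N) :
    s56l2_cor L V N hU hN ((s56esh_conjV L V N g).H2 y) = s56l2_cor L V N hU hN y := by
  rw [s56l2_cor_apply, s56l2_cor_apply, s56l2_sh_symm_conj, s56l2_trM_TM_H2]

end cor

section surj

variable {G : Type} [Group G] {L : LevelSys G} {V : Subgroup G} [hV : V.Normal]
  {N : Type} [AddCommGroup N] [DistribMulAction G N]

/-- The corestriction is surjective as soon as `lvH2 L` is right exact. -/
theorem s56l2_cor_surjective [Fintype (G ⧸ V)] [Finite N] {p : ℕ}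
    (hRE : ∀ {A B C : Type} [AddCommGroup A] [DistribMulAction G A] [Finite A]
      [AddCommGroup B] [DistribMulAction G B] [AddCommGroup C] [DistribMulAction G C]
      (E : LvSES G A B C), L.IsSmooth B → (∀ a : A, p • a = 0) →
      Function.Surjective (E.mπ L).H2)
    (hU : ∃ W ∈ L.levels, W ≤ V) (hN : (s56esh_LU L V).IsSmooth N)
    (htors : ∀ n : N, p • n = 0) (htriv : ∀ v ∈ V, ∀ n : N, v • n = n) :
    Function.Surjective (s56l2_cor L V N hU hN) := by
  have : Finite (G ⧸ V) := Finite.of_fintype _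
  have : Finite (s56esh_Coind L V N) := s56lf_coind_finite L V N htriv
  have hsurj := s56l2_pi_surjective (L := L) (V := V) (N := N) hU htriv
  let E := s56l2_kerSES (G := G) (s56esh_pi L V N)
    (fun g φ => s56esh_pi_equivariant g φ) hsurj
  have h1 := hRE E (s56esh_coind_smooth L V N)
    (s56l2_ker_tors _ _ p (s56lf_coind_tors L V N p htors))
  intro x
  obtain ⟨w, hw⟩ := h1 x
  refine ⟨s56l2_sh L V N hU hN w, ?_⟩
  rw [s56l2_cor_apply, AddEquiv.symm_apply_apply]
  exact hw

end surj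

end Fermat.Agent.S56
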