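import Mathlib
import Fermat.Agent.S56.GW.LEC.Kum2.Main
import Fermat.Agent.S56.GW.LEC.Alg

/-!
# S56, [GW-EC], cell [EC-L2], level-formalism half (helper3; prefix `s56l2_`): the count

Pure algebra.  `N` a finite `p`-torsion `G`-module, `Z` a `G`-module of order `p`.  If an abelian
group `Q` is a quotient of `Hom(Z, N)` through a map invariant under conjugation
(`m ↦ g m g⁻¹`), then `#Q ≤ #Hom_G(N, Z)`: the pairing `Hom(N, Z) × Hom(Z, N) → Z`,
`(f, m) ↦ f (m z₀)` is perfect and `G`-invariant, so `Hom(Q, Z) ↪ Hom(Hom(Z,N), Z)^G = Hom_G(N, Z)`.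
-/

set_option autoImplicit false
set_option linter.unusedSectionVars false

namespace Fermat.Agent.S56

open Fermat.Agent.S55 groupCohomology

section count

variable {p : ℕ} [Fact p.Prime] {G : Type*} [Group G]
  {N : Type*} [AddCommGroup N] [DistribMulAction G N] [Finite N]
  {Z : Type*} [AddCommGroup Z] [DistribMulAction G Z]

/-- The pairing `Hom(N, Z) → Hom(Hom(Z, N), Z)`, `f ↦ (m ↦ f (m z₀))`. -/
def s56l2_Psi (z₀ : Z) : (N →+ Z) →+ ((Z →+ N) →+ Z) :=
  AddMonoidHom.mk' (fun f => f.comp (AddMonoidHom.eval z₀)) (fun _ _ => by ext m; rfl)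

omit [Fact p.Prime] [Finite N] in
@[simp] theorem s56l2_Psi_apply (z₀ : Z) (f : N →+ Z) (m : Z →+ N) :
    s56l2_Psi z₀ f m = f (m z₀) := rfl

omit [Fact p.Prime] [Finite N] in
theorem s56l2_conjHom_conjHom (g : G) (m : Z →+ N) :
    s56lk2_conjHom g (s56lk2_conjHom g⁻¹ m) = m := by
  ext z
  simp only [s56lk2_conjHom_apply, inv_inv, smul_inv_smul]

theorem s56l2_count (hN : ∀ n : N, p • n = 0) (hZ : ∀ z : Z, p • z = 0) (hcard : Nat.card Z = p)
    {Q : Type*} [AddCommGroup Q] (κ : (Z →+ N) →+ Q) (hκ : Function.Surjective κ)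
    (hinv : ∀ (g : G) (m : Z →+ N), κ (s56lk2_conjHom g m) = κ m) :
    Finite Q ∧ Nat.card Q ≤ Nat.card {f : N →+ Z // ∀ (g : G) (n : N), f (g • n) = g • f n} := by
  have hp : p.Prime := Fact.out
  have : Finite Z := Nat.finite_of_card_ne_zero (by rw [hcard]; exact hp.ne_zero)
  have : Finite (Z →+ N) := Finite.of_injective (fun m : Z →+ N => (m : Z → N))
    DFunLike.coe_injective
  have : Finite (N →+ Z) := Finite.of_injective (fun m : N →+ Z => (m : N → Z))
    DFunLike.coe_injective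
  have : Finite ((Z →+ N) →+ Z) := Finite.of_injective
    (fun m : (Z →+ N) →+ Z => (m : (Z →+ N) → Z)) DFunLike.coe_injective
  have hQfin : Finite Q := Finite.of_surjective κ hκ
  have hY : ∀ m : Z →+ N, p • m = 0 := fun m => by
    ext z
    exact hN _
  have hQ : ∀ x : Q, p • x = 0 := fun x => by
    obtain ⟨m, rfl⟩ := hκ x
    rw [← map_nsmul, hY, map_zero]
  obtain ⟨z₀, θ, hθ1, hgen⟩ := s56lg_exists_gen hZ hcard
  -- evaluation at `z₀` is bijective
  have hev_inj : Function.Injective (AddMonoidHom.eval z₀ : (Z →+ N) →+ N) := by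
    rw [injective_iff_map_eq_zero]
    intro m hm
    ext z
    rw [hgen z, map_nsmul]
    have : m z₀ = 0 := hm
    rw [this, smul_zero]
    rfl
  have hev_surj : ∀ n : N, ∃ m : Z →+ N, m z₀ = n := by
    have hb := hev_inj.bijective_of_nat_card_le (by rw [s56lg_card_hom' hN hZ hcard])
    exact fun n => hb.2 n
  -- the pairing is perfect
  have hΨ_inj : Function.Injective (s56l2_Psi z₀ : (N →+ Z) →+ ((Z →+ N) →+ Z)) := by
    rw [injective_iff_map_eq_zero]
    intro f hf
    ext n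
    obtain ⟨m, rfl⟩ := hev_surj n
    have := congrArg (fun F : (Z →+ N) →+ Z => F m) hf
    simpa using this
  have hΨ_bij : Function.Bijective (s56l2_Psi z₀ : (N →+ Z) →+ ((Z →+ N) →+ Z)) := by
    refine hΨ_inj.bijective_of_nat_card_le ?_
    rw [s56lg_card_hom hY hZ hcard, s56lg_card_hom' hN hZ hcard, s56lg_card_hom hN hZ hcard]
  -- the pairing is invariant
  have hΨ_inv : ∀ (g : G) (f : N →+ Z) (m : Z →+ N),
      s56l2_Psi z₀ (s56lk2_conjHom g f) (s56lk2_conjHom g m) =
        s56l2_Psi z₀ f m := by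
    intro g f m
    simp only [s56l2_Psi_apply, s56lk2_conjHom_apply, inv_smul_smul]
    -- `g • f (m (g⁻¹ • z₀)) = f (m z₀)`
    have h1 : g⁻¹ • z₀ = (θ (g⁻¹ • z₀)).val • z₀ := hgen _
    have h2 : f (m z₀) = (θ (f (m z₀))).val • z₀ := hgen _
    have h3 : (θ (g⁻¹ • z₀)).val • (g • z₀) = z₀ := by
      rw [← smul_comm, ← h1, smul_inv_smul]
    rw [h1, map_nsmul, map_nsmul, smul_comm]
    generalize (θ (g⁻¹ • z₀)).val = k at h3 ⊢
    rw [h2]
    generalize (θ (f (m z₀))).val = j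
    rw [smul_comm g j z₀, smul_comm k j, h3]
  -- the injection `Hom(Q, Z) ↪ Hom_G(N, Z)`
  have hex : ∀ lam : Q →+ Z, ∃ f : N →+ Z, s56l2_Psi z₀ f = lam.comp κ :=
    fun lam => hΨ_bij.2 _
  choose F hF using hex
  have hFeq : ∀ (lam : Q →+ Z) (g : G) (n : N), F lam (g • n) = g • F lam n := by
    intro lam
    rw [s56lk2_equivariant_iff]
    intro g
    apply hΨ_inj
    ext m
    have h1 := hΨ_inv g (F lam) (s56lk2_conjHom g⁻¹ m)
    rw [s56l2_conjHom_conjHom] at h1
    rw [h1, hF lam]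
    show lam (κ (s56lk2_conjHom g⁻¹ m)) = lam (κ m)
    rw [hinv]
  have hFinj : Function.Injective
      (fun lam : Q →+ Z => (⟨F lam, hFeq lam⟩ :
        {f : N →+ Z // ∀ (g : G) (n : N), f (g • n) = g • f n})) := by
    intro lam lam' h
    have h1 : F lam = F lam' := congrArg Subtype.val h
    ext x
    obtain ⟨m, rfl⟩ := hκ x
    have h2 : lam.comp κ = lam'.comp κ := by rw [← hF lam, ← hF lam', h1]
    exact congrArg (fun φ : (Z →+ N) →+ Z => φ m) h2
  refine ⟨hQfin, ?_⟩
  rw [← s56lg_card_hom hQ hZ hcard]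
  exact Nat.card_le_card_of_injective _ hFinj

end count

end Fermat.Agent.S56
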