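import Mathlib
import Fermat.Agent.S55.Level.HomModule
import Fermat.Agent.S55.Dual.ModulesCore

/-!
# [EC-L2] bridge, abstract half: double duality `M ≅ Hom(M^*(χ), μ)` (prefix `s56l2b_`)

`G` a group, `ρ` a finite-dimensional representation of `G` on `M` over `ZMod p`,
`χ : G →* (ZMod p)ˣ`, `N` a `G`-module identified (additively) with the dual of `M`, the action
being `(g • f) m = χ g * f (ρ g⁻¹ m)`; `Z` a `G`-module which is cyclic of order `p`, generated by
`z` with `g • z = χ g • z`.  Then

* `s56l2b_Theta : M →+ LvHom N Z`, `m ↦ (f ↦ (f m) • z)` is a bijection, equivariant for `ρ`;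
* `s56l2b_card_invariants` : `|Hom_G(N, Z)| = |M^G|`.
-/

set_option autoImplicit false
set_option linter.unusedSectionVars false

namespace Fermat.Agent.S56

open Fermat.Agent.S55 groupCohomology Function

section DualIso

variable {p : ℕ} [hp : Fact p.Prime] {G : Type*} [Group G]
  {M : Type*} [AddCommGroup M] [Module (ZMod p) M] [FiniteDimensional (ZMod p) M]
  (ρ : Representation (ZMod p) G M) (χ : G →* (ZMod p)ˣ)
  {N : Type*} [AddCommGroup N] [DistribMulAction G N] (e : N ≃+ Module.Dual (ZMod p) M)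
  (he : ∀ (g : G) (f : N) (m : M), e (g • f) m = (χ g : ZMod p) * e f (ρ g⁻¹ m))
  {Z : Type*} [AddCommGroup Z] [DistribMulAction G Z] (z : Z) (hz : p • z = 0) (hz0 : z ≠ 0)
  (hgen : ∀ x : Z, ∃ c : ZMod p, x = dm_pair z hz c)
  (hχ : ∀ g : G, g • z = dm_pair z hz (χ g : ZMod p))

/-- The map `m ↦ (f ↦ (f m) • z)`. -/
def s56l2b_Theta : M →+ LvHom N Z where
  toFun m := LvHom.of
    { toFun := fun f => dm_pair z hz (e f m)
      map_zero' := by rw [map_zero, LinearMap.zero_apply, map_zero]
      map_add' := fun f f' => by rw [map_add, LinearMap.add_apply, map_add] }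
  map_zero' := by
    ext f
    show dm_pair z hz (e f 0) = 0
    rw [map_zero, map_zero]
  map_add' m m' := by
    ext f
    show dm_pair z hz (e f (m + m')) = dm_pair z hz (e f m) + dm_pair z hz (e f m')
    rw [map_add, map_add]

lemma s56l2b_Theta_apply (m : M) (f : N) :
    s56l2b_Theta e z hz m f = dm_pair z hz (e f m) := rfl

include hχ in
lemma s56l2b_smul_pair (g : G) (c : ZMod p) :
    g • dm_pair z hz c = dm_pair z hz ((χ g : ZMod p) * c) := by
  rw [dm_pair_apply, smul_comm, hχ, mul_comm, dm_pair_mul]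

include he hχ in
/-- `Θ` is equivariant. -/
lemma s56l2b_Theta_equiv (g : G) (m : M) :
    s56l2b_Theta e z hz (ρ g m) = g • s56l2b_Theta e z hz m := by
  ext f
  rw [LvHom.smul_apply, s56l2b_Theta_apply, s56l2b_Theta_apply,
    s56l2b_smul_pair χ z hz hχ, he, inv_inv, ← mul_assoc]
  have h1 : ((χ g : (ZMod p)ˣ) : ZMod p) * ((χ g⁻¹ : (ZMod p)ˣ) : ZMod p) = 1 := by
    rw [← Units.val_mul, ← map_mul, mul_inv_cancel, map_one, Units.val_one]
  rw [h1, one_mul]

include hz0 in
/-- `Θ` is injective. -/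
lemma s56l2b_Theta_injective : Injective (s56l2b_Theta e z hz) := by
  rw [injective_iff_map_eq_zero]
  intro m hm
  rw [← Module.forall_dual_apply_eq_zero_iff (ZMod p)]
  intro φ
  have h1 : s56l2b_Theta e z hz m (e.symm φ) = 0 := by rw [hm]; rfl
  rw [s56l2b_Theta_apply, e.apply_symm_apply] at h1
  have h2 := dm_pair_injective z hz hz0 (h1.trans (map_zero (dm_pair z hz)).symm)
  exact h2

include hz0 hgen in
/-- `Θ` is surjective. -/
lemma s56l2b_Theta_surjective : Surjective (s56l2b_Theta e z hz) := by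
  intro φ
  -- the coordinate of an element of `Z`
  choose c hc using hgen
  have hinj := dm_pair_injective z hz hz0
  have hc_add : ∀ x y : Z, c (x + y) = c x + c y := by
    intro x y
    apply hinj
    rw [map_add, ← hc, ← hc, ← hc]
  have hc_zero : c 0 = 0 := by
    apply hinj
    rw [← hc, map_zero]
  let l : Module.Dual (ZMod p) M →+ ZMod p :=
    { toFun := fun ψ => c (φ (e.symm ψ))
      map_zero' := by rw [map_zero, map_zero, hc_zero]
      map_add' := fun ψ ψ' => by rw [map_add, map_add, hc_add] }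
  obtain ⟨m, hm⟩ := (Module.evalEquiv (ZMod p) M).surjective (l.toZModLinearMap p)
  refine ⟨m, ?_⟩
  ext f
  rw [s56l2b_Theta_apply]
  have h1 : e f m = l (e f) := by
    have := congrArg (fun L : Module.Dual (ZMod p) (Module.Dual (ZMod p) M) => L (e f)) hm
    simpa using this
  rw [h1]
  show dm_pair z hz (c (φ (e.symm (e f)))) = φ f
  rw [e.symm_apply_apply, ← hc]

include he hχ hz0 hgen in
/-- **`|Hom_G(N, Z)| = |M^G|`.** -/
theorem s56l2b_card_invariants :
    Nat.card (lvH0 (G := G) (LvHom N Z)) = Nat.card ρ.invariants := by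
  symm
  refine Nat.card_congr (Equiv.ofBijective
    (fun m : ρ.invariants => (⟨s56l2b_Theta e z hz m.1, fun g => by
      rw [← s56l2b_Theta_equiv ρ χ e he z hz hχ, (Representation.mem_invariants _ _).1 m.2 g]⟩ :
      lvH0 (G := G) (LvHom N Z))) ⟨?_, ?_⟩)
  · intro m m' h
    apply Subtype.ext
    exact s56l2b_Theta_injective e z hz hz0 (congrArg Subtype.val h)
  · intro φ
    obtain ⟨m, hm⟩ := s56l2b_Theta_surjective e z hz hz0 hgen φ.1
    refine ⟨⟨m, (Representation.mem_invariants _ _).2 fun g => ?_⟩, Subtype.ext hm⟩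
    apply s56l2b_Theta_injective e z hz hz0
    rw [s56l2b_Theta_equiv ρ χ e he z hz hχ, hm]
    exact φ.2 g

end DualIso

end Fermat.Agent.S56
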