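import Fermat.Agent.S56.GW.EC.L2Lv.Cor
import Fermat.Agent.S56.GW.EC.L2Lv.Count

/-!
# S56, [GW-EC], cell [EC-L2], level-formalism half (helper3; prefix `s56l2_`): the bound

`G` a group with level system `L` for which `lvH2 L` is right exact on finite `p`-torsion kernels,
`V ⊴ G` containing a level, `N` a finite `p`-torsion `G`-module with trivial `V`-action, `Z` a
`G`-module of order `p` with trivial `V`-action such that `lvH2 (V, Z)` has order `p` and trivial
conjugation action.  Then `lvH2 (G, N)` is finite and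
`#lvH2 (G, N) ≤ #Hom_G(N, Z)` (`s56l2_main`; no hypothesis on the index `[G : V]`).

Route: `lvH2 (V, N) = Hom(Z, N)` (helper7's `Θ`), the corestriction `lvH2 (V, N) → lvH2 (G, N)`
is onto (right exactness) and conjugation invariant, and the count of `Count.lean`.
-/

set_option autoImplicit false
set_option linter.unusedSectionVars false

namespace Fermat.Agent.S56

open Fermat.Agent.S55 groupCohomology

variable {G : Type} [Group G]

/-- The hypotheses of the abstract `(L2 ≤)`. -/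
structure s56l2_Setting (L : LevelSys G) (p : ℕ) (V : Subgroup G) [V.Normal]
    (Z : Type) [AddCommGroup Z] [DistribMulAction G Z]
    (N : Type) [AddCommGroup N] [DistribMulAction G N] : Prop where
  prime : p.Prime
  isOpen : ∃ W ∈ L.levels, W ≤ V
  finN : Finite N
  torsN : ∀ n : N, p • n = 0
  trivN : ∀ v ∈ V, ∀ n : N, v • n = n
  cardZ : Nat.card Z = p
  trivZ : ∀ v ∈ V, ∀ z : Z, v • z = z
  br : Nat.card (lvH2 (s56esh_LU L V) Z) = p
  conj : ∀ (g : G) (y : lvH2 (s56esh_LU L V) Z), (s56esh_conjV L V Z g).H2 y = y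
  re : ∀ {A B C : Type} [AddCommGroup A] [DistribMulAction G A] [Finite A]
      [AddCommGroup B] [DistribMulAction G B] [AddCommGroup C] [DistribMulAction G C]
      (E : LvSES G A B C), L.IsSmooth B → (∀ a : A, p • a = 0) →
      Function.Surjective (E.mπ L).H2

section

variable {L : LevelSys G} {p : ℕ} {V : Subgroup G} [V.Normal]
  {Z : Type} [AddCommGroup Z] [DistribMulAction G Z]
  {N : Type} [AddCommGroup N] [DistribMulAction G N]
  (S : s56l2_Setting L p V Z N)
include S

theorem s56l2_smooth : L.IsSmooth N := by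
  intro n
  obtain ⟨W, hW, hWV⟩ := S.isOpen
  exact ⟨W, hW, fun u hu => S.trivN u (hWV hu) n⟩

theorem s56l2_smoothV : (s56esh_LU L V).IsSmooth N := s56esh_smooth_res (s56l2_smooth S)

theorem s56l2_torsZ (z : Z) : p • z = 0 := by
  rw [← S.cardZ]
  exact card_nsmul_eq_zero'

/-- `Θ_{y₀} : Hom(Z, N) → lvH2 (V, N)`, `m ↦ m_* y₀` (helper7's map, without the index
hypothesis). -/
def s56l2_Theta (y₀ : lvH2 (s56esh_LU L V) Z) : (Z →+ N) →+ lvH2 (s56esh_LU L V) N :=
  AddMonoidHom.mk'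
    (fun m => s56lk2_push (s56esh_LU L V) m (s56lk2_eqv_of_triv S.trivZ S.trivN m) y₀)
    (fun m m' => s56lk2_push_add (s56esh_LU L V) m m' _ _ y₀)

theorem s56l2_Theta_apply (y₀ : lvH2 (s56esh_LU L V) Z) (m : Z →+ N) :
    s56l2_Theta S y₀ m =
      s56lk2_push (s56esh_LU L V) m (s56lk2_eqv_of_triv S.trivZ S.trivN m) y₀ := rfl

theorem s56l2_Theta_surjective {y₀ : lvH2 (s56esh_LU L V) Z} (hy₀ : y₀ ≠ 0) :
    Function.Surjective (s56l2_Theta S y₀) := by
  have := S.finN
  intro y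
  obtain ⟨d, inj, prj, hdec⟩ := s56lk2_decomp S.prime S.torsN (Z := Z) S.cardZ
  obtain ⟨hgen1, -⟩ := s56lk2_gen S.prime S.br hy₀
  have hZN := fun φ : Z →+ N => s56lk2_eqv_of_triv (V := V) S.trivZ S.trivN φ
  have hNZ := fun φ : N →+ Z => s56lk2_eqv_of_triv (V := V) S.trivN S.trivZ φ
  have hNN := fun φ : N →+ N => s56lk2_eqv_of_triv (V := V) S.trivN S.trivN φ
  choose a ha using fun i : Fin d => hgen1 (s56lk2_push (s56esh_LU L V) (prj i) (hNZ _) y)
  refine ⟨∑ i, a i • inj i, ?_⟩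
  have hid : ∑ i, (inj i).comp (prj i) = AddMonoidHom.id N := by
    ext n
    simp only [AddMonoidHom.coe_finsetSum, Finset.sum_apply, AddMonoidHom.comp_apply,
      AddMonoidHom.id_apply]
    exact hdec n
  have h1 : y = ∑ i, s56lk2_push (s56esh_LU L V) ((inj i).comp (prj i)) (hNN _) y := by
    rw [← s56lk2_push_sum (s56esh_LU L V) Finset.univ (fun i => (inj i).comp (prj i))
      (fun i => hNN _) y]
    rw [s56lk2_push_congr (s56esh_LU L V) hid _ s56lk2_eqv_id y, s56lk2_push_id]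
  rw [map_sum, h1]
  refine Finset.sum_congr rfl fun i _ => ?_
  rw [map_nsmul, s56l2_Theta_apply]
  have h2 := s56lk2_push_comp (s56esh_LU L V) (prj i) (inj i) (hNZ _) (hZN _) y
  rw [h2, ha i, map_nsmul]

/-- Conjugation and `Θ`. -/
theorem s56l2_conj_Theta (y₀ : lvH2 (s56esh_LU L V) Z) (g : G) (m : Z →+ N) :
    (s56esh_conjV L V N g).H2 (s56l2_Theta S y₀ m) = s56l2_Theta S y₀ (s56lk2_conjHom g m) := by
  have hm := s56lk2_eqv_of_triv (V := V) S.trivZ S.trivN m
  have hm' := s56lk2_eqv_of_triv (V := V) S.trivZ S.trivN (s56lk2_conjHom g m)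
  have key : (s56esh_conjV L V N g).comp (LvMor.ofCoeff (s56esh_LU L V) m hm) =
      (LvMor.ofCoeff (s56esh_LU L V) (s56lk2_conjHom g m) hm').comp (s56esh_conjV L V Z g) := by
    apply s56esh_LvMor_ext
    · exact MonoidHom.ext fun _ => rfl
    · ext z
      show g • m z = g • m (g⁻¹ • g • z)
      rw [inv_smul_smul]
  have h1 := LvMor.H2_comp (s56esh_conjV L V N g) (LvMor.ofCoeff (s56esh_LU L V) m hm) y₀
  have h2 := LvMor.H2_comp (LvMor.ofCoeff (s56esh_LU L V) (s56lk2_conjHom g m) hm')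
    (s56esh_conjV L V Z g) y₀
  rw [key] at h1
  rw [h2, S.conj g y₀] at h1
  exact h1.symm

/-- **Abstract `(L2 ≤)`**: `lvH2 (G, N)` is finite of order at most `#Hom_G(N, Z)`. -/
theorem s56l2_main :
    Finite (lvH2 L N) ∧
      Nat.card (lvH2 L N) ≤
        Nat.card {f : N →+ Z // ∀ (g : G) (n : N), f (g • n) = g • f n} := by
  have := S.finN
  haveI : Fact p.Prime := ⟨S.prime⟩
  have hfi : V.FiniteIndex := s56esh_finiteIndex S.isOpen
  have hfq : Finite (G ⧸ V) := Subgroup.finite_quotient_of_finiteIndex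
  letI : Fintype (G ⧸ V) := Fintype.ofFinite _
  obtain ⟨y₀, hy₀⟩ := s56lk2_exists_y0 (L := L) (V := V) (Z := Z) S.prime S.br
  have hsurj := s56l2_cor_surjective (L := L) (V := V) (N := N) (p := p) S.re S.isOpen
    (s56l2_smoothV S) S.torsN S.trivN
  refine s56l2_count (p := p) (G := G) S.torsN (s56l2_torsZ S) S.cardZ
    ((s56l2_cor L V N S.isOpen (s56l2_smoothV S)).comp (s56l2_Theta S y₀))
    (hsurj.comp (s56l2_Theta_surjective S hy₀)) ?_
  intro g m
  show s56l2_cor L V N S.isOpen (s56l2_smoothV S) (s56l2_Theta S y₀ (s56lk2_conjHom g m)) =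
    s56l2_cor L V N S.isOpen (s56l2_smoothV S) (s56l2_Theta S y₀ m)
  rw [← s56l2_conj_Theta, s56l2_cor_conj]

/-- The same bound against the invariants of `LvHom N Z`. -/
theorem s56l2_main' :
    Finite (lvH2 L N) ∧ Nat.card (lvH2 L N) ≤ Nat.card (lvH0 (G := G) (LvHom N Z)) := by
  obtain ⟨h1, h2⟩ := s56l2_main S
  refine ⟨h1, h2.trans (le_of_eq (Nat.card_congr ?_))⟩
  exact
    { toFun := fun m => ⟨LvHom.of m.1, (LvHom.mem_lvH0_iff _).2 m.2⟩
      invFun := fun φ => ⟨LvHom.toHom φ.1, (LvHom.mem_lvH0_iff _).1 φ.2⟩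
      left_inv := fun _ => rfl
      right_inv := fun _ => rfl }

end

end Fermat.Agent.S56
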