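import Mathlib
import Fermat.Agent.S55.Level.LES
import Fermat.Agent.S56.GW.EC.Sh.Act
import Fermat.Agent.S56.GW.EC.Sh.Cores
import Fermat.Agent.S56.GW.EC.Sh.H2

/-!
# S56, [GW-EC], cell [EC-L2], level-formalism half (helper3; prefix `s56l2_`): the trace

`V ⊴ G` of finite index, `N` a `G`-module with trivial `V`-action.

* `s56l2_Ker f hf`, `s56l2_kerSES` : the kernel of an equivariant surjection as a `G`-module and
  the short exact sequence `0 → ker f → B → C → 0`;
* `s56l2_pi_T` : the trace `s56esh_pi : Coind_V^G N → N` is invariant under the second action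
  `s56esh_T h` of `G` on the coinduced module;
* `s56l2_pi_surjective` : the trace is surjective when `V` acts trivially on `N`;
* `s56l2_cor` : the corestriction `lvH2 (L|V) N → lvH2 L N` (trace after Shapiro's inverse),
  `s56l2_cor_conj` : it is invariant under conjugation, `s56l2_cor_surjective` : it is surjective
  as soon as `lvH2 L` is right exact.
-/

set_option autoImplicit false
set_option linter.unusedSectionVars false

namespace Fermat.Agent.S56

open Fermat.Agent.S55 groupCohomology

/-! ### Kernels of equivariant maps -/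

section ker

variable {G : Type*} [Group G] {B C : Type*} [AddCommGroup B] [DistribMulAction G B]
  [AddCommGroup C] [DistribMulAction G C]

/-- The kernel of an equivariant map, as a type. -/
@[nolint unusedArguments]
def s56l2_Ker (f : B →+ C) (_hf : ∀ (g : G) (b : B), f (g • b) = g • f b) : Type _ := ↥f.ker

variable (f : B →+ C) (hf : ∀ (g : G) (b : B), f (g • b) = g • f b)

instance s56l2_Ker.instAddCommGroup : AddCommGroup (s56l2_Ker f hf) :=
  inferInstanceAs (AddCommGroup ↥f.ker)

instance s56l2_Ker.instFinite [Finite B] : Finite (s56l2_Ker f hf) :=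
  inferInstanceAs (Finite ↥f.ker)

/-- The inclusion of the kernel. -/
def s56l2_kerIncl : s56l2_Ker f hf →+ B := f.ker.subtype

theorem s56l2_kerIncl_injective : Function.Injective (s56l2_kerIncl f hf) :=
  Subtype.coe_injective

theorem s56l2_map_kerIncl (x : s56l2_Ker f hf) : f (s56l2_kerIncl f hf x) = 0 := x.2

instance s56l2_Ker.instAction : DistribMulAction G (s56l2_Ker f hf) where
  smul g x := ⟨g • s56l2_kerIncl f hf x, by
    rw [AddMonoidHom.mem_ker, hf, s56l2_map_kerIncl, smul_zero]⟩
  one_smul x := Subtype.ext (one_smul G (s56l2_kerIncl f hf x))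
  mul_smul g h x := Subtype.ext (mul_smul g h (s56l2_kerIncl f hf x))
  smul_zero g := Subtype.ext (smul_zero g)
  smul_add g x y := Subtype.ext (smul_add g (s56l2_kerIncl f hf x) (s56l2_kerIncl f hf y))

theorem s56l2_kerIncl_smul (g : G) (x : s56l2_Ker f hf) :
    s56l2_kerIncl f hf (g • x) = g • s56l2_kerIncl f hf x := rfl

theorem s56l2_ker_tors (p : ℕ) (hB : ∀ b : B, p • b = 0) (x : s56l2_Ker f hf) : p • x = 0 := by
  apply s56l2_kerIncl_injective f hf
  rw [map_nsmul, hB, map_zero]

/-- The short exact sequence `0 → ker f → B → C → 0`. -/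
def s56l2_kerSES (hsurj : Function.Surjective f) : LvSES G (s56l2_Ker f hf) B C where
  i := s56l2_kerIncl f hf
  π := f
  i_equiv := s56l2_kerIncl_smul f hf
  π_equiv := hf
  i_inj := s56l2_kerIncl_injective f hf
  π_surj := hsurj
  exact := fun b => ⟨fun h => ⟨⟨b, h⟩, rfl⟩, fun ⟨a, ha⟩ => ha ▸ s56l2_map_kerIncl f hf a⟩

end ker

/-! ### The trace and the second action -/

section trace

variable {G : Type*} [Group G] (L : LevelSys G) (V : Subgroup G) [hV : V.Normal]
  (N : Type*) [AddCommGroup N] [DistribMulAction G N]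

variable {L V N}

/-- The trace is invariant under the second action of `G` on the coinduced module. -/
theorem s56l2_pi_T [Fintype (G ⧸ V)] (h : G) (φ : s56esh_Coind L V N) :
    s56esh_pi L V N (s56esh_T L V N h φ) = s56esh_pi L V N φ := by
  rw [s56esh_pi_apply, s56esh_pi_apply]
  rw [← Equiv.sum_comp (Equiv.mulLeft ((h⁻¹ : G) : G ⧸ V))
    (fun q : G ⧸ V => (q.out)⁻¹ • (φ : G → N) q.out)]
  refine Finset.sum_congr rfl fun q _ => ?_
  rw [s56esh_T_apply, Equiv.coe_mulLeft]
  have hq : ((h⁻¹ * q.out : G) : G ⧸ V) = (((((h⁻¹ : G) : G ⧸ V) * q).out : G) : G ⧸ V) := by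
    rw [QuotientGroup.out_eq', QuotientGroup.mk_mul, QuotientGroup.out_eq']
  have := s56esh_psi_const φ hq
  rw [← this, smul_smul, mul_inv_rev, inv_inv]

/-- The trace is surjective when `V` acts trivially on `N`. -/
theorem s56l2_pi_surjective [Fintype (G ⧸ V)] (hopen : ∃ W ∈ L.levels, W ≤ V)
    (hN : ∀ v ∈ V, ∀ n : N, v • n = n) : Function.Surjective (s56esh_pi L V N) := by
  classical
  intro n
  -- the function supported on `V` with value `n`
  have hmem : (fun g : G => if g ∈ V then n else 0) ∈ s56esh_coind L V N := by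
    refine ⟨fun v g => ?_, ?_⟩
    · show (if (v : G) * g ∈ V then n else 0) = (v : G) • (if g ∈ V then n else 0)
      have hiff : (v : G) * g ∈ V ↔ g ∈ V := V.mul_mem_cancel_left v.2
      by_cases hg : g ∈ V
      · rw [if_pos hg, if_pos (hiff.2 hg), hN v v.2]
      · rw [if_neg hg, if_neg (fun h => hg (hiff.1 h)), smul_zero]
    · obtain ⟨W, hW, hWV⟩ := hopen
      refine ⟨W, hW, fun g w hw => ?_⟩
      show (if g * w ∈ V then n else 0) = (if g ∈ V then n else 0)
      have hiff : g * w ∈ V ↔ g ∈ V := V.mul_mem_cancel_right (hWV hw)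
      by_cases hg : g ∈ V
      · rw [if_pos hg, if_pos (hiff.2 hg)]
      · rw [if_neg hg, if_neg (fun h => hg (hiff.1 h))]
  refine ⟨⟨_, hmem⟩, ?_⟩
  rw [s56esh_pi_apply]
  show ∑ q : G ⧸ V, (q.out)⁻¹ • (if q.out ∈ V then n else 0) = n
  rw [Finset.sum_eq_single (((1 : G) : G ⧸ V))]
  · have h1 : ((1 : G) : G ⧸ V).out ∈ V := by
      have := QuotientGroup.out_eq' ((1 : G) : G ⧸ V)
      have h2 := QuotientGroup.eq.1 this
      have h3 := V.inv_mem h2
      simpa using h3
    rw [if_pos h1, hN _ (V.inv_mem h1)]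
  · intro q _ hq
    have h1 : q.out ∉ V := by
      intro h
      apply hq
      rw [← QuotientGroup.out_eq' q]
      exact (QuotientGroup.eq_one_iff _).2 h
    rw [if_neg h1, smul_zero]
  · intro h
    exact (h (Finset.mem_univ _)).elim

end trace

end Fermat.Agent.S56
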